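/-
Programme S33 (row 32), brick A1 (helper76): **ordinarity from a cubic identity on inertia**
(Mathlib only).

`T` a reduced Henselian local ring, `V` free of rank `2` over `T`, `ρ : G →* End_T(V)`, subgroups
`I ≤ D` of `G` with `I` normalised by `D`, `ε : G → T` with `det ρ(σ₀) = ε(σ₀)` for one `σ₀ ∈ I` such
that `ε(σ₀) - 1` is a unit and `tr ρ(σ₀) ≡ ε(σ₀) + 1` modulo the maximal ideal
("`ρ̄` is `p`-distinguished and ordinary").  If the CUBIC identity

    (ρ τ - ε τ) (ρ σ - 1) (ρ σ' - 1) = 0      for all σ, σ', τ ∈ I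

holds, then there is a line `L = T ∙ b 0` (`b` a basis of `V`), stable under `D`, such that `I` acts
trivially on `V / L`  — exactly the conclusion shape of the Prelude's `GaloisRepAdic.IsOrdinaryAt`.

Proof.  `A = ρ σ₀` has characteristic polynomial `X² - tX + d ≡ (X - ε₀)(X - 1)`; Hensel gives the
roots `β ≡ 1`, `α = t - β ≡ ε₀` with `α - β` a unit, so `V = ker(A - α) ⊕ ker(A - β)`, both free of
rank `1` (direct summands over a local ring; neither is `0` by the trace).  The cubic identity at
`σ = σ' = τ = σ₀` on `ker(A - β)` gives `(β - ε₀)(β - 1)² = 0`, so `β = 1` (`T` reduced), `α = ε₀`.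
`L := ker(A - α) = (A - 1) V`.  The identity with `τ = σ' = σ₀` shows that `L` is `I`-stable; with
`τ = σ₀`, `σ' = σ` it shows that the character of `I` on `V / L` satisfies `(ψ - 1)² = 0`, so `ψ = 1`.
Finally `ρ d L = (ρ(d σ₀ d⁻¹) - 1) ρ d V ⊆ L` for `d ∈ D`.
-/
import Mathlib

set_option autoImplicit false
set_option linter.unusedSectionVars false
set_option linter.style.haveILetI false

open IsLocalRing Polynomial

namespace Fermat.Agent.S33P.Alg76

/-! ### Splitting an endomorphism with two eigenvalues whose difference is a unit -/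

section Split

variable {T : Type*} [CommRing T] {V : Type*} [AddCommGroup V] [Module T V]
  (A : Module.End T V) (α β : T) (u : Tˣ) (hu : (u : T) = α - β)
  (hA : ∀ v, A (A v) = (α + β) • A v - (α * β) • v)

/-- the projection onto `ker (A - α)`. -/
def projA : Module.End T V := ((u⁻¹ : Tˣ) : T) • (A - β • 1)

/-- the projection onto `ker (A - β)`. -/
def projB : Module.End T V := ((u⁻¹ : Tˣ) : T) • (α • 1 - A)

theorem projA_apply (v : V) : projA A β u v = ((u⁻¹ : Tˣ) : T) • (A v - β • v) := by
  simp [projA]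

theorem projB_apply (v : V) : projB A α u v = ((u⁻¹ : Tˣ) : T) • (α • v - A v) := by
  simp [projB]

include hu in
theorem projA_add_projB (v : V) : projA A β u v + projB A α u v = v := by
  rw [projA_apply, projB_apply, ← smul_add]
  have : A v - β • v + (α • v - A v) = (u : T) • v := by
    rw [hu, sub_smul]; abel
  rw [this, smul_smul, Units.inv_mul, one_smul]

include hA in
theorem apply_projA (v : V) : A (projA A β u v) = α • projA A β u v := by
  rw [projA_apply, map_smul, map_sub, map_smul, hA, smul_comm α]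
  congr 1
  rw [smul_sub, smul_smul, add_smul]
  abel

include hA in
theorem apply_projB (v : V) : A (projB A α u v) = β • projB A α u v := by
  rw [projB_apply, map_smul, map_sub, map_smul, hA, smul_comm β]
  congr 1
  rw [smul_sub, smul_smul, add_smul, mul_comm β α]
  abel

theorem projB_eq_zero_of_eigen {x : V} (hx : A x = α • x) : projB A α u x = 0 := by
  rw [projB_apply, hx, sub_self, smul_zero]

theorem projA_eq_zero_of_eigen {x : V} (hx : A x = β • x) : projA A β u x = 0 := by
  rw [projA_apply, hx, sub_self, smul_zero]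

include hu in
theorem projA_eq_self_of_eigen {x : V} (hx : A x = α • x) : projA A β u x = x := by
  have h := projA_add_projB A α β u hu x
  rwa [projB_eq_zero_of_eigen A α u hx, add_zero] at h

include hu in
theorem projB_eq_self_of_eigen {x : V} (hx : A x = β • x) : projB A α u x = x := by
  have h := projA_add_projB A α β u hu x
  rwa [projA_eq_zero_of_eigen A β u hx, zero_add] at h

include hu in
/-- `ker (projB) = ker (A - α)`. -/
theorem eigen_of_projB_eq_zero {x : V} (hx : projB A α u x = 0) : A x = α • x := by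
  rw [projB_apply] at hx
  have h2 : (u : T) • (((u⁻¹ : Tˣ) : T) • (α • x - A x)) = 0 := by rw [hx, smul_zero]
  rw [smul_smul, Units.mul_inv, one_smul, sub_eq_zero] at h2
  exact h2.symm

include hu in
theorem eigen_of_projA_eq_zero {x : V} (hx : projA A β u x = 0) : A x = β • x := by
  rw [projA_apply] at hx
  have h2 : (u : T) • (((u⁻¹ : Tˣ) : T) • (A x - β • x)) = 0 := by rw [hx, smul_zero]
  rw [smul_smul, Units.mul_inv, one_smul, sub_eq_zero] at h2
  exact h2

end Split

/-! ### Rank one generators -/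

section Gen

variable {T : Type*} [CommRing T] [Nontrivial T] {M : Type*} [AddCommGroup M] [Module T M]
  [Module.Free T M] [Module.Finite T M]

/-- A free module of rank one has a generator with trivial annihilator. -/
theorem exists_gen_of_finrank_one (h : Module.finrank T M = 1) :
    ∃ x : M, (∀ y : M, ∃ c : T, y = c • x) ∧ ∀ c : T, c • x = 0 → c = 0 := by
  let b : Module.Basis (Fin 1) T M := Module.finBasisOfFinrankEq T M h
  refine ⟨b 0, fun y => ⟨b.repr y 0, ?_⟩, fun c hc => ?_⟩
  · conv_lhs => rw [← b.sum_repr y]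
    rw [Fin.sum_univ_one]
  · have h1 : b.repr (c • b 0) = Finsupp.single 0 c := by
      rw [map_smul, b.repr_self, Finsupp.smul_single, smul_eq_mul, mul_one]
    rw [hc, map_zero] at h1
    have h2 := congrArg (fun f : Fin 1 →₀ T => f 0) h1
    simpa using h2.symm

end Gen

/-! ### The two eigenspaces are free of rank one -/

section Rank

variable {T : Type*} [CommRing T] [IsLocalRing T] {V : Type*} [AddCommGroup V] [Module T V]
  [Module.Free T V] [Module.Finite T V]
  (A : Module.End T V) (α β : T) (u : Tˣ) (hu : (u : T) = α - β)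
  (hA : ∀ v, A (A v) = (α + β) • A v - (α * β) • v)

/-- the eigenspace `ker (A - α)`. -/
def eig (γ : T) : Submodule T V := LinearMap.ker (A - γ • 1)

theorem mem_eig {γ : T} {x : V} : x ∈ eig A γ ↔ A x = γ • x := by
  simp [eig, sub_eq_zero]

include hA in
/-- the projection onto `ker (A - α)`, as a map into the eigenspace. -/
def projATo : V →ₗ[T] eig A α :=
  (projA A β u).codRestrict (eig A α) fun v => (mem_eig A).2 (apply_projA A α β u hA v)

include hA in
/-- the projection onto `ker (A - β)`, as a map into the eigenspace. -/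
def projBTo : V →ₗ[T] eig A β :=
  (projB A α u).codRestrict (eig A β) fun v => (mem_eig A).2 (apply_projB A α β u hA v)

include hu in
theorem projATo_comp_subtype :
    (projATo A α β u hA).comp (eig A α).subtype = LinearMap.id := by
  ext x
  exact projA_eq_self_of_eigen A α β u hu ((mem_eig A).1 x.2)

include hu in
theorem projBTo_comp_subtype :
    (projBTo A α β u hA).comp (eig A β).subtype = LinearMap.id := by
  ext x
  exact projB_eq_self_of_eigen A α β u hu ((mem_eig A).1 x.2)

include hu in
theorem projATo_surjective : Function.Surjective (projATo A α β u hA) := fun x =>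
  ⟨x, Subtype.ext (projA_eq_self_of_eigen A α β u hu ((mem_eig A).1 x.2))⟩

include hu in
theorem projBTo_surjective : Function.Surjective (projBTo A α β u hA) := fun x =>
  ⟨x, Subtype.ext (projB_eq_self_of_eigen A α β u hu ((mem_eig A).1 x.2))⟩

include hu hA in
theorem free_eigA : Module.Free T (eig A α) := by
  haveI : Module.Projective T (eig A α) :=
    Module.Projective.of_split (eig A α).subtype (projATo A α β u hA)
      (projATo_comp_subtype A α β u hu hA)
  haveI : Module.Finite T (eig A α) :=
    Module.Finite.of_surjective (projATo A α β u hA) (projATo_surjective A α β u hu hA)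
  exact Module.free_of_flat_of_isLocalRing

include hu hA in
theorem free_eigB : Module.Free T (eig A β) := by
  haveI : Module.Projective T (eig A β) :=
    Module.Projective.of_split (eig A β).subtype (projBTo A α β u hA)
      (projBTo_comp_subtype A α β u hu hA)
  haveI : Module.Finite T (eig A β) :=
    Module.Finite.of_surjective (projBTo A α β u hA) (projBTo_surjective A α β u hu hA)
  exact Module.free_of_flat_of_isLocalRing

include hu hA in
theorem finite_eigA : Module.Finite T (eig A α) :=
  Module.Finite.of_surjective (projATo A α β u hA) (projATo_surjective A α β u hu hA)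

include hu hA in
theorem finite_eigB : Module.Finite T (eig A β) :=
  Module.Finite.of_surjective (projBTo A α β u hA) (projBTo_surjective A α β u hu hA)

include hu hA in
theorem isCompl_eig : IsCompl (eig A α) (eig A β) := by
  constructor
  · rw [Submodule.disjoint_def]
    intro x hxα hxβ
    have h1 : (u : T) • x = 0 := by
      rw [hu, sub_smul, ← (mem_eig A).1 hxα, ← (mem_eig A).1 hxβ, sub_self]
    have h2 : ((u⁻¹ : Tˣ) : T) • ((u : T) • x) = 0 := by rw [h1, smul_zero]
    rwa [smul_smul, Units.inv_mul, one_smul] at h2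
  · rw [codisjoint_iff, eq_top_iff]
    intro v _
    rw [← projA_add_projB A α β u hu v]
    exact Submodule.add_mem_sup ((mem_eig A).2 (apply_projA A α β u hA v))
      ((mem_eig A).2 (apply_projB A α β u hA v))

include hu hA in
/-- both eigenspaces have rank one, as soon as `tr A = α + β` on the rank two module `V`. -/
theorem finrank_eig (hV : Module.finrank T V = 2) (htr : LinearMap.trace T V A = α + β) :
    Module.finrank T (eig A α) = 1 ∧ Module.finrank T (eig A β) = 1 := by
  haveI := free_eigA A α β u hu hA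
  haveI := free_eigB A α β u hu hA
  haveI := finite_eigA A α β u hu hA
  haveI := finite_eigB A α β u hu hA
  have hsum : Module.finrank T (eig A α) + Module.finrank T (eig A β) = 2 := by
    rw [← Module.finrank_prod, ← hV]
    exact (Submodule.prodEquivOfIsCompl _ _ (isCompl_eig A α β u hu hA)).finrank_eq
  have hu0 : (u : T) ≠ 0 := u.ne_zero
  have htr1 : LinearMap.trace T V (1 : Module.End T V) = 2 := by
    rw [LinearMap.trace_one, hV]; norm_num
  -- neither eigenspace is zero
  have hα : Module.finrank T (eig A α) ≠ 0 := by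
    intro h0
    have hs : Subsingleton (eig A α) := (Module.finrank_eq_zero_iff_of_free T _).1 h0
    have hAβ : A = β • 1 := by
      ext v
      have h1 : projATo A α β u hA v = 0 := Subsingleton.elim _ _
      have h2 : projA A β u v = 0 := congrArg Subtype.val h1
      simpa using eigen_of_projA_eq_zero A α β u hu h2
    rw [hAβ, map_smul, htr1, smul_eq_mul] at htr
    apply hu0
    rw [hu]
    linear_combination -htr
  have hβ : Module.finrank T (eig A β) ≠ 0 := by
    intro h0
    have hs : Subsingleton (eig A β) := (Module.finrank_eq_zero_iff_of_free T _).1 h0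
    have hAα : A = α • 1 := by
      ext v
      have h1 : projBTo A α β u hA v = 0 := Subsingleton.elim _ _
      have h2 : projB A α u v = 0 := congrArg Subtype.val h1
      simpa using eigen_of_projB_eq_zero A α β u hu h2
    rw [hAα, map_smul, htr1, smul_eq_mul] at htr
    apply hu0
    rw [hu]
    linear_combination htr
  omega

end Rank

/-! ### Cayley–Hamilton in rank two and the Hensel roots -/

section Charpoly

variable {T : Type*} [CommRing T] [Nontrivial T] {V : Type*} [AddCommGroup V] [Module T V]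
  [Module.Free T V] [Module.Finite T V]

/-- Cayley–Hamilton in rank two. -/
theorem cayley_two (hV : Module.finrank T V = 2) (A : Module.End T V) (v : V) :
    A (A v) = LinearMap.trace T V A • A v - LinearMap.det A • v := by
  let c : Module.Basis (Fin 2) T V := Module.finBasisOfFinrankEq T V hV
  have hch : A.charpoly = X ^ 2 - C (LinearMap.trace T V A) * X + C (LinearMap.det A) := by
    rw [← LinearMap.charpoly_toMatrix A c, Matrix.charpoly_fin_two,
      ← LinearMap.trace_eq_matrix_trace T c A, LinearMap.det_toMatrix c A]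
  have h0 := LinearMap.aeval_self_charpoly A
  rw [hch] at h0
  have h1 := LinearMap.congr_fun h0 v
  simp only [map_add, map_sub, map_mul, aeval_X, aeval_C, LinearMap.add_apply,
    LinearMap.sub_apply, LinearMap.zero_apply, Module.End.mul_apply,
    Module.algebraMap_end_apply, pow_two] at h1
  rw [← sub_eq_zero]
  rw [← h1]
  abel

end Charpoly

section Hensel

variable {T : Type*} [CommRing T] [IsLocalRing T]

/-- in a local ring, an element congruent to a unit is a unit. -/
theorem isUnit_of_sub_mem {x y : T} (hx : IsUnit x) (h : y - x ∈ maximalIdeal T) : IsUnit y := by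
  by_contra hy
  have hy' : y ∈ maximalIdeal T := (mem_maximalIdeal y).2 hy
  have hx' : x ∈ maximalIdeal T := by
    have : x = y - (y - x) := by ring
    rw [this]
    exact sub_mem hy' h
  exact (mem_maximalIdeal x).1 hx' hx

/-- The Hensel property of a local ring, as an explicit hypothesis. -/
def HenselProp (T : Type*) [CommRing T] [IsLocalRing T] : Prop :=
  ∀ f : T[X], f.Monic → ∀ a₀ : T, f.eval a₀ ∈ maximalIdeal T → IsUnit (f.derivative.eval a₀) →
    ∃ a : T, f.IsRoot a ∧ a - a₀ ∈ maximalIdeal T

theorem henselProp_of_henselianLocalRing (T : Type*) [CommRing T] [HenselianLocalRing T] :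
    HenselProp T :=
  fun f hf a₀ h1 h2 => HenselianLocalRing.is_henselian f hf a₀ h1 h2

theorem henselProp_of_isAdicComplete (T : Type*) [CommRing T] [IsLocalRing T]
    [IsAdicComplete (maximalIdeal T) T] : HenselProp T :=
  fun f hf a₀ h1 h2 => by
    have h2' : IsUnit (Ideal.Quotient.mk (maximalIdeal T) (f.derivative.eval a₀)) := h2.map _
    obtain ⟨a, ha, ha'⟩ := HenselianRing.is_henselian (R := T) (I := maximalIdeal T) f hf a₀ h1 h2'
    exact ⟨a, ha, ha'⟩

/-- The two roots `α ≡ ε₀`, `β ≡ 1` of `X² - tX + d`, `d = ε₀`, `t ≡ ε₀ + 1`, `ε₀ - 1` a unit. -/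
theorem exists_roots (hH : HenselProp T) (t d ε₀ : T) (hd : d = ε₀) (hu : IsUnit (ε₀ - 1))
    (htr : t - (ε₀ + 1) ∈ maximalIdeal T) :
    ∃ α β : T, α + β = t ∧ α * β = d ∧ β - 1 ∈ maximalIdeal T ∧ IsUnit (α - β) := by
  set f : T[X] := X ^ 2 - (C t * X - C d) with hf
  have hmon : f.Monic := by
    apply monic_X_pow_sub
    calc (C t * X - C d).degree ≤ max (C t * X).degree (C d).degree := degree_sub_le _ _
      _ ≤ 1 := by
        apply max_le
        · exact (degree_C_mul_X_le t)
        · exact (degree_C_le).trans (by norm_num)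
      _ < ((2 : ℕ) : WithBot ℕ) := by norm_num
  have hev : f.eval 1 = -(t - (ε₀ + 1)) := by
    simp only [hf, eval_sub, eval_pow, eval_X, eval_mul, eval_C, hd]
    ring
  have hder : f.derivative.eval 1 = -(t - (ε₀ + 1)) - (ε₀ - 1) := by
    simp only [hf, derivative_sub, derivative_X_pow, derivative_mul, derivative_C, derivative_X,
      eval_sub, eval_mul, eval_pow, eval_X, eval_C, zero_mul, zero_add, mul_one,
      Nat.cast_ofNat, eval_zero]
    ring
  have h1 : f.eval 1 ∈ maximalIdeal T := by
    rw [hev]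
    exact neg_mem htr
  have h2 : IsUnit (f.derivative.eval 1) := by
    apply isUnit_of_sub_mem hu.neg
    rw [hder]
    have : -(t - (ε₀ + 1)) - (ε₀ - 1) - -(ε₀ - 1) = -(t - (ε₀ + 1)) := by ring
    rw [this]
    exact neg_mem htr
  obtain ⟨β, hβ, hβ1⟩ := hH f hmon 1 h1 h2
  have hroot : β ^ 2 - (t * β - d) = 0 := by
    have := hβ
    simp only [IsRoot.def, hf, eval_sub, eval_pow, eval_X, eval_mul, eval_C] at this
    exact this
  refine ⟨t - β, β, by ring, by linear_combination -hroot, hβ1, ?_⟩
  apply isUnit_of_sub_mem hu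
  have : t - β - β - (ε₀ - 1) = (t - (ε₀ + 1)) - 2 * (β - 1) := by ring
  rw [this]
  exact sub_mem htr (Ideal.mul_mem_left _ _ hβ1)

end Hensel

/-! ### The main theorem -/

section Main

variable {T : Type*} [CommRing T] [IsLocalRing T] [IsReduced T]
  {V : Type*} [AddCommGroup V] [Module T V] [Module.Free T V] [Module.Finite T V]
  {G : Type*} [Group G]

theorem cubic_apply (X Y Z : Module.End T V) (a : T) (v : V) :
    ((X - a • 1) * (Y - 1) * (Z - 1)) v =
      X (Y (Z v - v) - (Z v - v)) - a • (Y (Z v - v) - (Z v - v)) := by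
  simp only [Module.End.mul_apply, LinearMap.sub_apply, LinearMap.smul_apply,
    Module.End.one_apply]

/-- **A1 (explicit Hensel hypothesis).** -/
theorem exists_line_of_cubic_of_henselProp (hH : HenselProp T) (hV : Module.finrank T V = 2)
    (ρ : G →* Module.End T V) (I D : Subgroup G)
    (hnorm : ∀ d ∈ D, ∀ σ ∈ I, d * σ * d⁻¹ ∈ I) (ε : G → T) {σ₀ : G} (h0 : σ₀ ∈ I)
    (hdet : LinearMap.det (ρ σ₀) = ε σ₀) (hu : IsUnit (ε σ₀ - 1))
    (htr : LinearMap.trace T V (ρ σ₀) - (ε σ₀ + 1) ∈ maximalIdeal T)
    (hcubic : ∀ σ ∈ I, ∀ σ' ∈ I, ∀ τ ∈ I, (ρ τ - ε τ • 1) * (ρ σ - 1) * (ρ σ' - 1) = 0) :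
    ∃ L : Submodule T V, (∃ b : Module.Basis (Fin 2) T V, L = T ∙ b 0) ∧
      (∀ d ∈ D, ∀ v ∈ L, ρ d v ∈ L) ∧ ∀ σ ∈ I, ∀ v : V, ρ σ v - v ∈ L := by
  set A : Module.End T V := ρ σ₀ with hAdef
  obtain ⟨α, β, hsum, hprod, hβ1, huαβ⟩ :=
    exists_roots hH (LinearMap.trace T V A) (LinearMap.det A) (ε σ₀) hdet hu htr
  obtain ⟨u, hu'⟩ := huαβ
  have hA : ∀ v, A (A v) = (α + β) • A v - (α * β) • v := by
    intro v
    rw [hsum, hprod]
    exact cayley_two hV A v
  obtain ⟨h1α, h1β⟩ := finrank_eig A α β u hu' hA hV hsum.symm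
  haveI := free_eigA A α β u hu' hA
  haveI := free_eigB A α β u hu' hA
  haveI := finite_eigA A α β u hu' hA
  haveI := finite_eigB A α β u hu' hA
  obtain ⟨x, hxgen, hxtors⟩ := exists_gen_of_finrank_one h1α
  obtain ⟨y, hygen, hytors⟩ := exists_gen_of_finrank_one h1β
  have hAx : A (x : V) = α • (x : V) := (mem_eig A).1 x.2
  have hAy : A (y : V) = β • (y : V) := (mem_eig A).1 y.2
  have hytors' : ∀ c : T, c • (y : V) = 0 → c = 0 := fun c hc =>
    hytors c (Subtype.ext hc)
  have hxtors' : ∀ c : T, c • (x : V) = 0 → c = 0 := fun c hc =>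
    hxtors c (Subtype.ext hc)
  -- `β = 1`
  have hβ : β = 1 := by
    have hc := LinearMap.congr_fun (hcubic σ₀ h0 σ₀ h0 σ₀ h0) (y : V)
    rw [cubic_apply, ← hAdef, LinearMap.zero_apply] at hc
    have e1 : A (y : V) - (y : V) = (β - 1) • (y : V) := by rw [hAy]; module
    have e2 : A (A (y : V) - (y : V)) - (A (y : V) - (y : V)) = ((β - 1) ^ 2) • (y : V) := by
      rw [e1, map_smul, hAy]; module
    have e3 : A (((β - 1) ^ 2) • (y : V)) - ε σ₀ • (((β - 1) ^ 2) • (y : V)) =
        ((β - ε σ₀) * (β - 1) ^ 2) • (y : V) := by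
      rw [map_smul, hAy]; module
    rw [e2, e3] at hc
    have h3 := hytors' _ hc
    have h4 : (β - ε σ₀) * (β - 1) ^ 2 = 0 := by linear_combination h3
    have h5 : IsUnit (β - ε σ₀) := by
      apply isUnit_of_sub_mem hu.neg
      have : β - ε σ₀ - -(ε σ₀ - 1) = β - 1 := by ring
      rw [this]
      exact hβ1
    have h6 : (β - 1) ^ 2 = 0 := (h5.mul_right_eq_zero).1 h4
    exact sub_eq_zero.1 ((pow_eq_zero_iff (two_ne_zero)).1 h6)
  subst hβ
  have hα : α = ε σ₀ := by rw [← hdet, ← hprod, mul_one]
  have hAy' : A (y : V) = (y : V) := by rw [hAy, one_smul]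
  -- `(A - 1) V ⊆ L`
  have F1 : ∀ w : V, A w - w ∈ eig A α := by
    intro w
    rw [mem_eig, map_sub, hA]
    module
  -- `L ⊆ (A - 1) V`
  have F2 : ∀ l ∈ eig A α, ∃ w : V, l = A w - w := by
    intro l hl
    refine ⟨((u⁻¹ : Tˣ) : T) • l, ?_⟩
    have h := projA_eq_self_of_eigen A α 1 u hu' ((mem_eig A).1 hl)
    rw [projA_apply, one_smul] at h
    rw [map_smul, ← smul_sub, h]
  -- `L` is `I`-stable
  have I1 : ∀ σ ∈ I, ∀ l ∈ eig A α, ρ σ l - l ∈ eig A α := by
    intro σ hσ l hl
    obtain ⟨w, rfl⟩ := F2 l hl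
    have hc := LinearMap.congr_fun (hcubic σ hσ σ₀ h0 σ₀ h0) w
    rw [cubic_apply, ← hAdef, LinearMap.zero_apply, sub_eq_zero, ← hα] at hc
    exact (mem_eig A).2 hc
  -- `I` acts trivially on `V / L`
  have I2 : ∀ σ ∈ I, ∀ v : V, ρ σ v - v ∈ eig A α := by
    intro σ hσ
    have hy : ρ σ (y : V) - (y : V) ∈ eig A α := by
      set S : Module.End T V := ρ σ with hS
      set l : V := projA A 1 u (S (y : V) - (y : V)) with hl
      have hlL : l ∈ eig A α := (mem_eig A).2 (apply_projA A α 1 u hA _)
      have hBmem : projB A α u (S (y : V) - (y : V)) ∈ eig A 1 :=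
        (mem_eig A).2 (apply_projB A α 1 u hA _)
      obtain ⟨c, hc⟩ := hygen ⟨_, hBmem⟩
      have hc' : projB A α u (S (y : V) - (y : V)) = c • (y : V) := congrArg Subtype.val hc
      have hdec : S (y : V) - (y : V) = l + c • (y : V) := by
        rw [← hc', hl]
        exact (projA_add_projB A α 1 u hu' _).symm
      have hSy : S (y : V) = l + c • (y : V) + (y : V) := by
        rw [← hdec]; abel
      have hcub := LinearMap.congr_fun (hcubic σ hσ σ hσ σ₀ h0) (y : V)
      rw [cubic_apply, ← hAdef, ← hS, LinearMap.zero_apply, ← hα] at hcub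
      have hSl : S l - l ∈ eig A α := I1 σ hσ l hlL
      have e1 : S (S (y : V) - (y : V)) - (S (y : V) - (y : V)) =
          (S l - l) + c • l + (c * c) • (y : V) := by
        rw [hdec, map_add, map_smul, hSy]
        module
      rw [e1] at hcub
      have e2 : A (S l - l + c • l + (c * c) • (y : V)) -
          α • (S l - l + c • l + (c * c) • (y : V)) = ((c * c) * (1 - α)) • (y : V) := by
        rw [map_add, map_add, map_smul, map_smul, (mem_eig A).1 hSl, (mem_eig A).1 hlL, hAy']
        module
      rw [e2] at hcub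
      have h3 := hytors' _ hcub
      have h4 : IsUnit (1 - α) := by
        have : 1 - α = -(u : T) := by rw [hu']; ring
        rw [this]
        exact u.isUnit.neg
      have h5 : c * c = 0 := (h4.mul_left_eq_zero).1 h3
      have h6 : c = 0 := by
        have : c ^ 2 = 0 := by rw [pow_two]; exact h5
        exact (pow_eq_zero_iff (two_ne_zero)).1 this
      rw [hdec, h6, zero_smul, add_zero]
      exact hlL
    intro v
    have hA' : projA A 1 u v ∈ eig A α := (mem_eig A).2 (apply_projA A α 1 u hA _)
    have hB' : projB A α u v ∈ eig A 1 := (mem_eig A).2 (apply_projB A α 1 u hA _)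
    obtain ⟨a, ha⟩ := hygen ⟨_, hB'⟩
    have ha' : projB A α u v = a • (y : V) := congrArg Subtype.val ha
    have hv : v = projA A 1 u v + a • (y : V) := by
      rw [← ha']
      exact (projA_add_projB A α 1 u hu' v).symm
    have e : ρ σ v - v = (ρ σ (projA A 1 u v) - projA A 1 u v) +
        a • (ρ σ (y : V) - (y : V)) := by
      conv_lhs => rw [hv]
      rw [map_add, map_smul]
      module
    rw [e]
    exact add_mem (I1 σ hσ _ hA') (Submodule.smul_mem _ _ hy)
  -- the line
  refine ⟨eig A α, ?_, ?_, I2⟩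
  · -- basis
    have hli : LinearIndependent T ![(x : V), (y : V)] := by
      rw [LinearIndependent.pair_iff]
      intro s t hst
      have h1 := congrArg (projA A 1 u) hst
      rw [map_add, map_smul, map_smul, projA_eq_self_of_eigen A α 1 u hu' hAx,
        projA_eq_zero_of_eigen A 1 u hAy, smul_zero, add_zero, map_zero] at h1
      have hs := hxtors' s h1
      rw [hs, zero_smul, zero_add] at hst
      exact ⟨hs, hytors' t hst⟩
    have hsp : ⊤ ≤ Submodule.span T (Set.range ![(x : V), (y : V)]) := by
      intro v _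
      have hA' : projA A 1 u v ∈ eig A α := (mem_eig A).2 (apply_projA A α 1 u hA _)
      have hB' : projB A α u v ∈ eig A 1 := (mem_eig A).2 (apply_projB A α 1 u hA _)
      obtain ⟨a, ha⟩ := hxgen ⟨_, hA'⟩
      obtain ⟨c, hc⟩ := hygen ⟨_, hB'⟩
      have ha' : projA A 1 u v = a • (x : V) := congrArg Subtype.val ha
      have hc' : projB A α u v = c • (y : V) := congrArg Subtype.val hc
      rw [← projA_add_projB A α 1 u hu' v, ha', hc']
      exact add_mem (Submodule.smul_mem _ _ (Submodule.subset_span ⟨0, rfl⟩))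
        (Submodule.smul_mem _ _ (Submodule.subset_span ⟨1, rfl⟩))
    refine ⟨Module.Basis.mk hli hsp, ?_⟩
    rw [Module.Basis.mk_apply]
    show eig A α = Submodule.span T {(x : V)}
    apply le_antisymm
    · intro l hl
      obtain ⟨a, ha⟩ := hxgen ⟨l, hl⟩
      rw [Submodule.mem_span_singleton]
      exact ⟨a, (congrArg Subtype.val ha).symm⟩
    · rw [Submodule.span_singleton_le_iff_mem]
      exact x.2
  · -- `D`-stability
    intro d hd l hl
    obtain ⟨w, rfl⟩ := F2 l hl
    have hconj : d * σ₀ * d⁻¹ ∈ I := hnorm d hd σ₀ h0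
    have h := I2 _ hconj (ρ d w)
    have e : ρ (d * σ₀ * d⁻¹) (ρ d w) = ρ d (A w) := by
      rw [hAdef, ← Module.End.mul_apply, ← Module.End.mul_apply, ← map_mul, ← map_mul]
      congr 2
      group
    rw [e] at h
    rwa [map_sub]

end Main

/-! ### The brick A1 in its announced shapes -/

section Final

/-- **A1, complete local form** (the shape of S33: `T` local, `𝔪`-adically complete, reduced). -/
theorem exists_line_of_cubic_of_complete {T : Type*} [CommRing T] [IsLocalRing T] [IsReduced T]
    [IsAdicComplete (maximalIdeal T) T]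
    {V : Type*} [AddCommGroup V] [Module T V] [Module.Free T V] [Module.Finite T V]
    (hV : Module.finrank T V = 2) {G : Type*} [Group G]
    (ρ : G →* Module.End T V) (I D : Subgroup G)
    (hnorm : ∀ d ∈ D, ∀ σ ∈ I, d * σ * d⁻¹ ∈ I) (ε : G → T)
    (hdet : ∀ σ ∈ I, LinearMap.det (ρ σ) = ε σ) {σ₀ : G} (h0 : σ₀ ∈ I)
    (hu : IsUnit (ε σ₀ - 1))
    (htr : LinearMap.trace T V (ρ σ₀) - (ε σ₀ + 1) ∈ maximalIdeal T)
    (hcubic : ∀ σ ∈ I, ∀ σ' ∈ I, ∀ τ ∈ I, (ρ τ - ε τ • 1) * (ρ σ - 1) * (ρ σ' - 1) = 0) :
    ∃ L : Submodule T V, (∃ b : Module.Basis (Fin 2) T V, L = T ∙ b 0) ∧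
      (∀ d ∈ D, ∀ v ∈ L, ρ d v ∈ L) ∧ ∀ σ ∈ I, ∀ v : V, ρ σ v - v ∈ L :=
  exists_line_of_cubic_of_henselProp (henselProp_of_isAdicComplete T) hV ρ I D hnorm ε h0
    (hdet σ₀ h0) hu htr hcubic

/-- **A1, Henselian form.** -/
theorem exists_line_of_cubic {T : Type*} [CommRing T] [HenselianLocalRing T] [IsReduced T]
    {V : Type*} [AddCommGroup V] [Module T V] [Module.Free T V] [Module.Finite T V]
    (hV : Module.finrank T V = 2) {G : Type*} [Group G]
    (ρ : G →* Module.End T V) (I D : Subgroup G)
    (hnorm : ∀ d ∈ D, ∀ σ ∈ I, d * σ * d⁻¹ ∈ I) (ε : G → T)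
    (hdet : ∀ σ ∈ I, LinearMap.det (ρ σ) = ε σ) {σ₀ : G} (h0 : σ₀ ∈ I)
    (hu : IsUnit (ε σ₀ - 1))
    (htr : LinearMap.trace T V (ρ σ₀) - (ε σ₀ + 1) ∈ maximalIdeal T)
    (hcubic : ∀ σ ∈ I, ∀ σ' ∈ I, ∀ τ ∈ I, (ρ τ - ε τ • 1) * (ρ σ - 1) * (ρ σ' - 1) = 0) :
    ∃ L : Submodule T V, (∃ b : Module.Basis (Fin 2) T V, L = T ∙ b 0) ∧
      (∀ d ∈ D, ∀ v ∈ L, ρ d v ∈ L) ∧ ∀ σ ∈ I, ∀ v : V, ρ σ v - v ∈ L :=
  exists_line_of_cubic_of_henselProp (henselProp_of_henselianLocalRing T) hV ρ I D hnorm ε h0
    (hdet σ₀ h0) hu htr hcubic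

end Final

end Fermat.Agent.S33P.Alg76
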