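/-
Programme S33 (row 32), brick EIGEN (helper76): the packaged **eigen-decomposition** of an
endomorphism of a free rank two module over a Henselian local ring whose characteristic polynomial
is `≡ (X - ε₀)(X - 1)` with `ε₀ - 1` a unit  (all pieces from `Alg76/Cubic.lean`).
-/
import Mathlib
import Fermat.Agent.S33P.Alg76.Cubic

set_option autoImplicit false
set_option linter.unusedSectionVars false
set_option linter.style.haveILetI false

open IsLocalRing Polynomial

namespace Fermat.Agent.S33P.Alg76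

variable {T : Type*} [CommRing T] [IsLocalRing T]
  {V : Type*} [AddCommGroup V] [Module T V] [Module.Free T V] [Module.Finite T V]

/-- **Eigen-decomposition** (explicit Hensel hypothesis). -/
theorem exists_eigen_decomp_of_henselProp (hH : HenselProp T) (hV : Module.finrank T V = 2)
    (A : Module.End T V) (ε₀ : T) (hdet : LinearMap.det A = ε₀) (hu : IsUnit (ε₀ - 1))
    (htr : LinearMap.trace T V A - (ε₀ + 1) ∈ maximalIdeal T) :
    ∃ α β : T, α + β = LinearMap.trace T V A ∧ α * β = LinearMap.det A ∧ IsUnit (α - β) ∧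
      IsUnit (α - 1) ∧ α - ε₀ ∈ maximalIdeal T ∧ β - 1 ∈ maximalIdeal T ∧
      ∃ b : Module.Basis (Fin 2) T V, A (b 0) = α • b 0 ∧ A (b 1) = β • b 1 := by
  obtain ⟨α, β, hsum, hprod, hβ1, huαβ⟩ :=
    exists_roots hH (LinearMap.trace T V A) (LinearMap.det A) ε₀ hdet hu htr
  have hα1 : IsUnit (α - 1) := by
    apply isUnit_of_sub_mem huαβ
    have : α - 1 - (α - β) = β - 1 := by ring
    rw [this]
    exact hβ1
  have hαε : α - ε₀ ∈ maximalIdeal T := by
    have : α - ε₀ = (LinearMap.trace T V A - (ε₀ + 1)) - (β - 1) := by rw [← hsum]; ring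
    rw [this]
    exact sub_mem htr hβ1
  refine ⟨α, β, hsum, hprod, huαβ, hα1, hαε, hβ1, ?_⟩
  obtain ⟨u, hu'⟩ := huαβ
  have hA : ∀ v, A (A v) = (α + β) • A v - (α * β) • v := by
    intro v
    rw [hsum, hprod]
    exact cayley_two hV A v
  obtain ⟨h1α, h1β⟩ := finrank_eig A α β u hu' hA hV hsum.symm
  haveI := free_eigA A α β u hu' hA
  haveI := free_eigB A α β u hu' hA
  haveI := finite_eigA A α β u hu' hA
  haveI := finite_eigB A α β u hu' hA
  obtain ⟨x, hxgen, hxtors⟩ := exists_gen_of_finrank_one h1α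
  obtain ⟨y, hygen, hytors⟩ := exists_gen_of_finrank_one h1β
  have hAx : A (x : V) = α • (x : V) := (mem_eig A).1 x.2
  have hAy : A (y : V) = β • (y : V) := (mem_eig A).1 y.2
  have hytors' : ∀ c : T, c • (y : V) = 0 → c = 0 := fun c hc => hytors c (Subtype.ext hc)
  have hxtors' : ∀ c : T, c • (x : V) = 0 → c = 0 := fun c hc => hxtors c (Subtype.ext hc)
  have hli : LinearIndependent T ![(x : V), (y : V)] := by
    rw [LinearIndependent.pair_iff]
    intro s t hst
    have h1 := congrArg (projA A β u) hst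
    rw [map_add, map_smul, map_smul, projA_eq_self_of_eigen A α β u hu' hAx,
      projA_eq_zero_of_eigen A β u hAy, smul_zero, add_zero, map_zero] at h1
    have hs := hxtors' s h1
    rw [hs, zero_smul, zero_add] at hst
    exact ⟨hs, hytors' t hst⟩
  have hsp : ⊤ ≤ Submodule.span T (Set.range ![(x : V), (y : V)]) := by
    intro v _
    have hA' : projA A β u v ∈ eig A α := (mem_eig A).2 (apply_projA A α β u hA _)
    have hB' : projB A α u v ∈ eig A β := (mem_eig A).2 (apply_projB A α β u hA _)
    obtain ⟨a, ha⟩ := hxgen ⟨_, hA'⟩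
    obtain ⟨c, hc⟩ := hygen ⟨_, hB'⟩
    have ha' : projA A β u v = a • (x : V) := congrArg Subtype.val ha
    have hc' : projB A α u v = c • (y : V) := congrArg Subtype.val hc
    rw [← projA_add_projB A α β u hu' v, ha', hc']
    exact add_mem (Submodule.smul_mem _ _ (Submodule.subset_span ⟨0, rfl⟩))
      (Submodule.smul_mem _ _ (Submodule.subset_span ⟨1, rfl⟩))
  refine ⟨Module.Basis.mk hli hsp, ?_, ?_⟩
  · rw [Module.Basis.mk_apply]
    exact hAx
  · rw [Module.Basis.mk_apply]
    exact hAy

/-- **Eigen-decomposition**, complete local form (S33's instances). -/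
theorem exists_eigen_decomp [IsAdicComplete (maximalIdeal T) T] (hV : Module.finrank T V = 2)
    (A : Module.End T V) (ε₀ : T) (hdet : LinearMap.det A = ε₀) (hu : IsUnit (ε₀ - 1))
    (htr : LinearMap.trace T V A - (ε₀ + 1) ∈ maximalIdeal T) :
    ∃ α β : T, α + β = LinearMap.trace T V A ∧ α * β = LinearMap.det A ∧ IsUnit (α - β) ∧
      IsUnit (α - 1) ∧ α - ε₀ ∈ maximalIdeal T ∧ β - 1 ∈ maximalIdeal T ∧
      ∃ b : Module.Basis (Fin 2) T V, A (b 0) = α • b 0 ∧ A (b 1) = β • b 1 :=
  exists_eigen_decomp_of_henselProp (henselProp_of_isAdicComplete T) hV A ε₀ hdet hu htr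

end Fermat.Agent.S33P.Alg76
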